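import Fermat.Agent.S34.Inst.Abs
import Fermat.Agent.S34.V2.ConcGal
import Fermat.Agent.S34.V2.ConcFrob
import Fermat.Agent.S34.Mod.Main

set_option autoImplicit false
set_option linter.unusedSectionVars false

/-!
# S34 / Inst / Conc : the hypotheses of `geo_abs` for the concrete two-level context (`IsConc`), from chapter MOD
-/

noncomputable section

namespace Fermat.Agent.S34

open ModularCurve Polynomial IntermediateField Fermat.Agent.S18 Fermat.Agent.S18.V Fermat.Agent.S34.V2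

variable {R K : Type} [CommRing R] [IsDomain R] [IsDiscreteValuationRing R] [Field K] [CharZero K]
  [Algebra R K] [IsFractionRing R K]

/-- a series with coefficients in `R` one of which is a unit is a unit of the Gauss ring. -/
theorem cR_inv_mem_gaussL {α : LaurentSeries R} (h : Prim α) : (cR R K α)⁻¹ ∈ gaussL R K :=
  inv_mem_of_notMem_nonunits _ (cR_mem_gaussL α) (cR_notMem_nonunits h)

variable {M q : ℕ} [NeZero M] [NeZero q] {E : Type} [Field E] [Algebra K E]
  [Algebra E ↥(FK K (M * q))] [IsScalarTower K E ↥(FK K (M * q))]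
  {T : Two R K q E ↥(FK K (M * q))}

theorem V2.IsConc.coe_map (hT : IsConc M q T) (y : E) :
    (algebraMap E ↥(FK K (M * q)) y).1 = T.jE y := by
  rw [← hT.jF_eq, T.compat]

theorem V2.IsConc.coe_i2 (hT : IsConc M q T) (y : E) : (T.i2 y).1 = qExpand K q (T.jE y) := by
  rw [← hT.jF_eq, T.i2_apply, T.w_E]

theorem V2.IsConc.coe_xF (hT : IsConc M q T) : (T.xF).1 = xK K (lineOf q) := by
  rw [Two.xF, hT.coe_map, hT.jE_x]

theorem V2.IsConc.coe_xq (hT : IsConc M q T) : (T.xq).1 = qExpand K q (xK K (lineOf q)) := by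
  have : T.xq = T.i2 T.x := rfl
  rw [this, hT.coe_i2, hT.jE_x]

theorem V2.IsConc.isIntegral_iff (hT : IsConc M q T) (t z : ↥(FK K (M * q))) :
    IsIntegral (Algebra.adjoin K {t}) z ↔ Mod.IntOver K t.1 z.1 := by
  rw [← Mod.intOver_iff_isIntegral, ← Mod.intOver_coe_iff]

theorem V2.IsConc.m8_fin (hT : IsConc M q T) : IsIntegral (Algebra.adjoin K {T.xF}) T.xq := by
  rw [hT.isIntegral_iff, hT.coe_xF, hT.coe_xq]
  exact (Mod.out_M8 K q T.hq).1

theorem V2.IsConc.m8_inf (hT : IsConc M q T) : IsIntegral (Algebra.adjoin K {T.xF⁻¹}) T.xq⁻¹ := by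
  rw [hT.isIntegral_iff]
  show Mod.IntOver K (T.xF.1)⁻¹ (T.xq.1)⁻¹
  rw [hT.coe_xF, hT.coe_xq]
  exact (Mod.out_M8 K q T.hq).2.2.1

/-! ### `j` -/

theorem V2.IsConc.exists_j (hT : IsConc M q T) : ∃ jj : E, T.jE jj = jqModC K := by
  refine hT.jE_surj _ ?_
  have := Mod.jS_mem K (one_dvd M)
  rwa [Mod.jS_one] at this

theorem conc_cR_jq : cR R K (jqModC R) = jqModC K := coeffMap_jqModC _

theorem conc_prim_jq : Prim (jqModC R) := ⟨-1, by rw [coeff_jqModC_neg_one]; exact isUnit_one⟩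

theorem V2.IsConc.rel (hT : IsConc M q T) {jj : E} (hj : T.jE jj = jqModC K) :
    (q = 3 ∧ jj * T.x ^ 2 = (T.x + 256) ^ 3) ∨
      (q ≠ 3 ∧ jj * T.x ^ 3 = (T.x + 27) * (T.x + 243) ^ 3) := by
  have hinj : Function.Injective T.jE := T.jE.toRingHom.injective
  by_cases h : q = 3
  · left
    refine ⟨h, hinj ?_⟩
    have hl : lineOf q = line2 := if_pos h
    have h1 := xK_rel K line2 (Or.inl rfl)
    rw [map_mul, map_pow, map_pow, map_add, hj, hT.jE_x, hl]
    generalize xK K line2 = X at h1 ⊢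
    simp only [line2, map_pow, map_add, aeval_X] at h1
    rw [← h1, map_ofNat, map_ofNat]
  · right
    refine ⟨h, hinj ?_⟩
    have hl : lineOf q = line3 := if_neg h
    have h1 := xK_rel K line3 (Or.inr rfl)
    rw [map_mul, map_pow, map_mul, map_pow, map_add, map_add, hj, hT.jE_x, hl]
    generalize xK K line3 = X at h1 ⊢
    simp only [line3, map_pow, map_add, map_mul, aeval_X] at h1
    rw [← h1, map_ofNat, map_ofNat, map_ofNat, map_ofNat]

theorem conc_isUnit_natCast (T : Two R K q E ↥(FK K (M * q))) {p : ℕ} (hp : Nat.Coprime p q) :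
    IsUnit (p : R) := by
  obtain ⟨a, b, hab⟩ := Nat.isCoprime_iff_coprime.2 hp
  have h : (a : R) * (p : R) + (b : R) * (q : R) = 1 := by exact_mod_cast congrArg (Int.cast : ℤ → R) hab
  rcases IsLocalRing.isUnit_or_isUnit_of_add_one h with h1 | h1
  · exact isUnit_of_mul_isUnit_right h1
  · exact absurd (isUnit_of_mul_isUnit_right h1) T.hqR

theorem V2.IsConc.j_fix (hT : IsConc M q T) {jj : E} (hj : T.jE jj = jqModC K) {s : E ≃+* E}
    (hs : s T.x = T.x) : s jj = jj := by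
  have hx : T.x ≠ 0 := inst_x_ne_zero T
  rcases hT.rel hj with ⟨-, h⟩ | ⟨-, h⟩
  · have h2 := congrArg s h
    rw [map_mul, map_pow, map_pow, map_add, hs, map_ofNat, ← h] at h2
    exact mul_right_cancel₀ (pow_ne_zero 2 hx) h2
  · have h2 := congrArg s h
    rw [map_mul, map_pow, map_mul, map_pow, map_add, map_add, hs, map_ofNat, map_ofNat, ← h] at h2
    exact mul_right_cancel₀ (pow_ne_zero 3 hx) h2

theorem V2.IsConc.rel_fin (hT : IsConc M q T) {jj : E} (hj : T.jE jj = jqModC K) :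
    ∃ (B : R[X]) (r : ℕ), 1 ≤ r ∧ IsUnit (B.coeff 0) ∧ jj * T.x ^ r = evR R K T.x B := by
  rcases hT.rel hj with ⟨hq, h⟩ | ⟨hq, h⟩
  · refine ⟨(X + 256) ^ 3, 2, by norm_num, ?_, ?_⟩
    · have h2 : IsUnit ((2 : ℕ) : R) := conc_isUnit_natCast T (by rw [hq]; decide)
      have e : ((X + 256 : R[X]) ^ 3).coeff 0 = ((2 : ℕ) : R) ^ 24 := by
        rw [coeff_zero_eq_eval_zero]
        simp only [eval_pow, eval_add, eval_X, eval_ofNat]
        norm_num
      rw [e]; exact h2.pow 24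
    · rw [h, map_pow, map_add, evR_X, map_ofNat]
  · refine ⟨(X + 27) * (X + 243) ^ 3, 3, by norm_num, ?_, ?_⟩
    · have h2 : IsUnit ((3 : ℕ) : R) := conc_isUnit_natCast T
        ((Nat.coprime_primes Nat.prime_three T.hq).2 (Ne.symm hq))
      have e : ((X + 27 : R[X]) * (X + 243) ^ 3).coeff 0 = ((3 : ℕ) : R) ^ 18 := by
        rw [coeff_zero_eq_eval_zero]
        simp only [eval_mul, eval_pow, eval_add, eval_X, eval_ofNat]
        norm_num
      rw [e]; exact h2.pow 18
    · rw [h, map_mul, map_pow, map_add, map_add, evR_X, map_ofNat, map_ofNat]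

theorem V2.IsConc.rel_inf (hT : IsConc M q T) {jj : E} (hj : T.jE jj = jqModC K) :
    ∃ (B : R[X]) (r : ℕ), 1 ≤ r ∧ IsUnit (B.coeff 0) ∧ jj * T.x⁻¹ ^ r = evR R K T.x⁻¹ B := by
  have hx : T.x ≠ 0 := inst_x_ne_zero T
  rcases hT.rel hj with ⟨-, h⟩ | ⟨-, h⟩
  · refine ⟨(1 + 256 * X) ^ 3, 1, le_rfl, ?_, ?_⟩
    · have e : ((1 + 256 * X : R[X]) ^ 3).coeff 0 = 1 := by
        rw [coeff_zero_eq_eval_zero]
        simp only [eval_pow, eval_add, eval_mul, eval_X, eval_ofNat, eval_one]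
        norm_num
      rw [e]; exact isUnit_one
    · rw [map_pow, map_add, map_mul, evR_X, map_ofNat, map_one]
      have : jj = (T.x + 256) ^ 3 / T.x ^ 2 := by
        rw [eq_div_iff (pow_ne_zero 2 hx), h]
      rw [this]
      field_simp
  · refine ⟨(1 + 27 * X) * (1 + 243 * X) ^ 3, 1, le_rfl, ?_, ?_⟩
    · have e : ((1 + 27 * X : R[X]) * (1 + 243 * X) ^ 3).coeff 0 = 1 := by
        rw [coeff_zero_eq_eval_zero]
        simp only [eval_pow, eval_add, eval_mul, eval_X, eval_ofNat, eval_one]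
        norm_num
      rw [e]; exact isUnit_one
    · rw [map_mul, map_pow, map_add, map_add, map_mul, map_mul, evR_X, map_ofNat, map_ofNat,
        map_one]
      have : jj = (T.x + 27) * (T.x + 243) ^ 3 / T.x ^ 3 := by
        rw [eq_div_iff (pow_ne_zero 3 hx), h]
      rw [this]
      field_simp

/-! ### `D` -/

/-- `Δ(z)/Δ(qz)` as an element of `F_{Mq,K}`. -/
def concD (K : Type) [Field K] [CharZero K] (M q : ℕ) [NeZero M] [NeZero q] (hq : q.Prime) :
    ↥(FK K (M * q)) :=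
  ⟨Mod.DK K q, Mod.DK_mem K q (M * q) hq (dvd_mul_left q M)⟩

theorem conc_cR_DK : cR R K (Mod.DK R q) = Mod.DK K q := Mod.coeffMap_DK _ q

theorem conc_cR_DKinv : cR R K (Mod.DKinv R q) = Mod.DKinv K q := Mod.coeffMap_DKinv _ q

theorem V2.IsConc.coe_wD (hT : IsConc M q T) (hqM : ¬ q ∣ M) :
    (T.w (concD K M q T.hq)).1 = (q : LaurentSeries K) ^ 12 * Mod.DKinv K q := by
  rw [hT.w_eq]
  refine Mod.wQ_DK K q (M * q) T.hq (dvd_mul_left q M) ?_
  rw [Nat.mul_div_cancel _ T.hq.pos]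
  exact (Nat.Prime.coprime_iff_not_dvd T.hq).2 hqM

theorem conc_natCast_pow (n k : ℕ) : (n : LaurentSeries K) ^ k = cst R K ((n : R) ^ k) := by
  rw [map_pow, map_natCast]

theorem V2.IsConc.jdHyp (hT : IsConc M q T) (hqM : ¬ q ∣ M) {jj : E} (hj : T.jE jj = jqModC K)
    {s : E ≃+* E} (hs : s T.x = T.x) :
    JDHyp T s jj (concD K M q T.hq) ((q : R) ^ 12) where
  j_ne := by
    rintro rfl
    rw [map_zero] at hj
    exact (conc_prim_jq (R := R)).cR_ne_zero (K := K) (by rw [conc_cR_jq, ← hj])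
  j_mem := by
    rw [T.mem_VE, hj, ← conc_cR_jq (R := R)]
    exact cR_mem_gaussL _
  j_inv_mem := by
    rw [T.mem_VE, map_inv₀, hj, ← conc_cR_jq (R := R)]
    exact cR_inv_mem_gaussL conc_prim_jq
  j_fix := hT.j_fix hj hs
  c_ne := by
    have : (q : R) ≠ 0 := by
      intro h
      have h2 := congrArg (algebraMap R K) h
      rw [map_natCast, map_zero] at h2
      exact NeZero.ne q (Nat.cast_eq_zero.1 h2)
    exact pow_ne_zero 12 this
  D_mul := by
    apply Subtype.ext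
    show Mod.DK K q * (T.w (concD K M q T.hq)).1 = cst R K ((q : R) ^ 12)
    rw [hT.coe_wD hqM, ← conc_natCast_pow, mul_left_comm, Mod.DK_mul_DKinv, mul_one]
  D_mem := by
    rw [T.mem_Vi, hT.jF_eq]
    show Mod.DK K q ∈ _
    rw [← conc_cR_DK (R := R)]
    exact cR_mem_gaussL _
  D_unit := by
    rw [T.mem_Vi_nonunits, hT.jF_eq]
    intro h
    have h1 : Mod.DK K q ∈ (gaussL R K).nonunits := h
    have h2 : Mod.DKinv K q ∈ gaussL R K := by
      rw [← conc_cR_DKinv (R := R)]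
      exact cR_mem_gaussL _
    have h3 := mul_mem_nonunits' _ h1 h2
    rw [Mod.DK_mul_DKinv] at h3
    exact one_notMem_nonunits _ h3
  wD_mem := by
    rw [T.mem_Vi_nonunits, hT.jF_eq, hT.coe_wD hqM, conc_natCast_pow (R := R)]
    refine mul_mem_nonunits' _ ?_ ?_
    · rw [cst_mem_nonunits_iff]
      intro h
      exact T.hqR ((isUnit_pow_iff (n := 12) (by norm_num)).1 h)
    · rw [← conc_cR_DKinv (R := R)]
      exact cR_mem_gaussL _
  D_int := by
    rw [hT.isIntegral_iff, hT.coe_map, hj]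
    exact (Mod.out_D_int K q T.hq).1
  wD_int := by
    rw [hT.isIntegral_iff, hT.coe_map, hj, hT.coe_wD hqM]
    refine Mod.IntOver.mul ?_ (Mod.out_D_int K q T.hq).2
    have : (q : LaurentSeries K) ^ 12 = algebraMap K (LaurentSeries K) ((q : K) ^ 12) := by
      rw [map_pow, map_natCast]
    rw [this]
    exact Mod.intOver_algebraMap _ _
  g_int := by
    rw [hT.isIntegral_iff]
    show Mod.IntOver K ((algebraMap E ↥(FK K (M * q)) jj).1)⁻¹
      ((T.i2 jj).1 / (algebraMap E ↥(FK K (M * q)) jj).1 ^ q)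
    rw [hT.coe_map, hT.coe_i2, hj, ← Mod.jS_of_ne]
    exact Mod.out_G K q T.hq

end Fermat.Agent.S34
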