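import Fermat.Agent.S34.Inst.JD
import Fermat.Agent.S34.SS.Final
import Fermat.Agent.S34.V2.Sat
import Fermat.Agent.S24.Principal

set_option autoImplicit false
set_option linter.unusedSectionVars false

/-!
# S34 / Inst / Abs : `Branches` and `SSAt` (both charts) from the two-level context `Two` + explicit hypotheses

Everything is abstract in `E`, `F` (type variables).
-/

noncomputable section

namespace Fermat.Agent.S34

open Polynomial IntermediateField Fermat.Agent.S18 Fermat.Agent.S34.V2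

variable {R K : Type} [CommRing R] [IsDomain R] [IsDiscreteValuationRing R] [Field K] [CharZero K]
  [Algebra R K] [IsFractionRing R K] {q : ℕ} [NeZero q] {E F : Type} [Field E] [Field F]
  [Algebra K E] [Algebra K F] [Algebra E F] [IsScalarTower K E F] {T : Two R K q E F}

theorem inst_x_ne_zero (T : Two R K q E F) : T.x ≠ 0 := by
  intro h
  exact T.trans_x (h ▸ isAlgebraic_zero)

/-- the chart `x` of the lower level. -/
theorem chart1_fin {ϖ : R} (hϖ : Irreducible ϖ) (hfinE : FiniteDimensional K⟮T.x⟯ E)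
    (hE : ∀ y : E, InO K ϖ T.x y ↔ y ∈ T.VE) (hn : RedNormal K ϖ T.x) :
    Chart1 K ϖ T.x T.VE where
  trans := T.trans_x
  fin := hfinE
  inO_iff := hE
  mem := T.rE_mem_VE_nonunits.2 hϖ.not_isUnit
  unif z hz := by
    have := T.div_unif_E hϖ hz
    rwa [div_eq_mul_inv, mul_comm] at this
  normal := hn

/-- the chart `x⁻¹` of the lower level. -/
theorem chart1_inf {ϖ : R} (hϖ : Irreducible ϖ) (hfinE : FiniteDimensional K⟮T.x⟯ E)
    (hE : ∀ y : E, InO K ϖ T.x y ↔ y ∈ T.VE) (hn : RedNormal K ϖ T.x⁻¹) :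
    Chart1 K ϖ T.x⁻¹ T.VE where
  trans := glue_transcendental_inv T.trans_x
  fin := by rw [S24.principal_adjoin_inv_eq]; exact hfinE
  inO_iff y := (InO_inv_iff hϖ (inst_x_ne_zero T)).trans (hE y)
  mem := T.rE_mem_VE_nonunits.2 hϖ.not_isUnit
  unif z hz := by
    have := T.div_unif_E hϖ hz
    rwa [div_eq_mul_inv, mul_comm] at this
  normal := hn

/-- the hypotheses on "`j`", "`Δ(z)/Δ(qz)`" common to both charts. -/
structure JDHyp (T : Two R K q E F) (s : E ≃+* E) (jj : E) (D : F) (c₀ : R) : Prop where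
  j_ne : jj ≠ 0
  j_mem : jj ∈ T.VE
  j_inv_mem : jj⁻¹ ∈ T.VE
  j_fix : s jj = jj
  c_ne : c₀ ≠ 0
  D_mul : D * T.w D = rE R K F c₀
  D_mem : D ∈ T.Vi
  D_unit : D ∉ T.Vi.nonunits
  wD_mem : T.w D ∈ T.Vi.nonunits
  D_int : IsIntegral (Algebra.adjoin K {algebraMap E F jj}) D
  wD_int : IsIntegral (Algebra.adjoin K {algebraMap E F jj}) (T.w D)
  g_int : IsIntegral (Algebra.adjoin K {(algebraMap E F jj)⁻¹}) (T.i2 jj / algebraMap E F jj ^ q)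

theorem ssAt_of_two {ϖ : R} (hϖ : Irreducible ϖ) (hB : Branches (K := K) ϖ T.xF T.Vi T.V0)
    {t₁ : E} (ht : t₁ = T.x ∨ t₁ = T.x⁻¹) (h1 : Chart1 K ϖ t₁ T.VE) {s : E ≃+* E}
    (hs : FrobTwist T s) (hM8 : T.i2 t₁ ∈ CInt R K (algebraMap E F t₁)) {jj : E} {D : F} {c₀ : R}
    (hJ : JDHyp T s jj D c₀)
    (hrel : ∃ (B : R[X]) (r : ℕ), 1 ≤ r ∧ IsUnit (B.coeff 0) ∧ jj * t₁ ^ r = evR R K t₁ B) :
    SSAt (R := R) (K := K) ϖ (algebraMap E F t₁) := by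
  have ht' : algebraMap E F t₁ = T.xF ∨ algebraMap E F t₁ = T.xF⁻¹ := by
    rcases ht with rfl | rfl
    · exact Or.inl rfl
    · exact Or.inr (map_inv₀ _ _)
  exact ssAt_of_sides hϖ T.hq.two_le hB ht' h1 (side_i hϖ hB ht h1 hs hM8)
    (side_0 hϖ hB ht h1 hs hM8)
    (jData_of_two hϖ hs hJ.j_ne hJ.j_mem hJ.j_inv_mem hJ.j_fix hrel hJ.c_ne hJ.D_mul hJ.D_mem
      hJ.D_unit hJ.wD_mem hJ.D_int hJ.wD_int hJ.g_int)

/-- **abstract INST**. -/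
theorem geo_abs {ϖ : R} (hϖ : Irreducible ϖ) (hfinE : FiniteDimensional K⟮T.x⟯ E)
    (hE : ∀ y : E, InO K ϖ T.x y ↔ y ∈ T.VE) (hn1 : RedNormal K ϖ T.x)
    (hn2 : RedNormal K ϖ T.x⁻¹) {s : E ≃+* E} (hs : FrobTwist T s)
    (hM8 : IsIntegral (Algebra.adjoin K {T.xF}) T.xq)
    (hM8' : IsIntegral (Algebra.adjoin K {T.xF⁻¹}) T.xq⁻¹) (hxinv : T.x⁻¹ ∈ T.VE)
    {jj : E} {D : F} {c₀ : R} (hJ : JDHyp T s jj D c₀)
    (hrel1 : ∃ (B : R[X]) (r : ℕ), 1 ≤ r ∧ IsUnit (B.coeff 0) ∧ jj * T.x ^ r = evR R K T.x B)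
    (hrel2 : ∃ (B : R[X]) (r : ℕ), 1 ≤ r ∧ IsUnit (B.coeff 0) ∧
      jj * T.x⁻¹ ^ r = evR R K T.x⁻¹ B) :
    Branches (K := K) ϖ T.xF T.Vi T.V0 ∧ SSAt (R := R) (K := K) ϖ T.xF ∧
      SSAt (R := R) (K := K) ϖ T.xF⁻¹ := by
  have hB : Branches (K := K) ϖ T.xF T.Vi T.V0 := T.branches hϖ hfinE hE
  refine ⟨hB, ?_, ?_⟩
  · exact ssAt_of_two hϖ hB (Or.inl rfl) (chart1_fin hϖ hfinE hE hn1) hs
      (V2.Branches.mem_CInt hϖ hB hM8 T.xq_mem_Vi T.xq_mem_V0) hJ hrel1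
  · have h := ssAt_of_two hϖ hB (Or.inr rfl) (chart1_inf hϖ hfinE hE hn2) hs (by
      have e1 : algebraMap E F T.x⁻¹ = T.xF⁻¹ := map_inv₀ _ _
      have e2 : T.i2 T.x⁻¹ = T.xq⁻¹ := map_inv₀ _ _
      rw [e1, e2]
      refine V2.Branches.mem_CInt_inv hϖ hB hM8' ?_ ?_
      · rw [← e2]; exact T.i2_mem_Vi.2 hxinv
      · rw [← e2]; exact T.i2_mem_V0.2 hxinv) hJ hrel2
    have e1 : algebraMap E F T.x⁻¹ = T.xF⁻¹ := map_inv₀ _ _
    rwa [e1] at h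

end Fermat.Agent.S34
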