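import Fermat.Agent.S34.SS.Defs
import Fermat.Agent.S34.SS.Basic
import Fermat.Agent.S34.V2.Two

set_option autoImplicit false
set_option linter.unusedSectionVars false

/-!
# S34 / Inst / Basic : transport of integrality along ring homomorphisms
-/

noncomputable section

namespace Fermat.Agent.S34

open Polynomial IntermediateField Fermat.Agent.S18

variable {R K : Type} [CommRing R] [Field K] [Algebra R K]
  {E F : Type} [Field E] [Algebra K E] [Field F] [Algebra K F]

/-- a ring homomorphism sending `R` and `t` into `CInt R K t'` sends `CInt R K t` into `CInt R K t'`. -/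
theorem inst_map_CInt (φ : E →+* F) {t : E} {t' : F}
    (hR : ∀ r : R, φ (rE R K E r) ∈ CInt R K t') (ht : φ t ∈ CInt R K t') {z : E}
    (hz : z ∈ CInt R K t) : φ z ∈ CInt R K t' := by
  letI : Algebra R[X] F := (evR R K t').toAlgebra
  have hcoef : ∀ s : R[X], φ (evR R K t s) ∈ integralClosure R[X] F := by
    intro s
    have h1 : φ (evR R K t s) ∈ CInt R K t' := by
      show φ (eval₂ (rE R K E) t s) ∈ CInt R K t'
      rw [eval₂_eq_sum_range, map_sum]
      refine Subring.sum_mem _ fun i _ => ?_
      rw [map_mul, map_pow]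
      exact Subring.mul_mem _ (hR _) (Subring.pow_mem _ ht _)
    exact h1
  obtain ⟨p, hp, hpz⟩ := hz
  let ψ : R[X] →+* integralClosure R[X] F :=
    (φ.comp (evR R K t)).codRestrict (integralClosure R[X] F) hcoef
  have hψ : (algebraMap (integralClosure R[X] F) F).comp ψ = φ.comp (evR R K t) := by
    ext1 <;> rfl
  have h1 : IsIntegral (integralClosure R[X] F) (φ z) := by
    refine ⟨p.map ψ, hp.map ψ, ?_⟩
    rw [eval₂_map, hψ, ← hom_eval₂, hpz, map_zero]
  exact isIntegral_trans (R := R[X]) (A := integralClosure R[X] F) _ h1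

/-- `K`-algebra homomorphisms. -/
theorem inst_algHom_CInt (φ : E →ₐ[K] F) {t : E} {t' : F} (ht : φ t ∈ CInt R K t') {z : E}
    (hz : z ∈ CInt R K t) : φ z ∈ CInt R K t' :=
  inst_map_CInt (φ : E →+* F) (fun r => by
    have : (φ : E →+* F) (rE R K E r) = rE R K F r := by simp [rE]
    rw [this]; exact rE_mem_CInt t' r) ht hz

end Fermat.Agent.S34
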