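import Fermat.Agent.S34.Inst.Sides
import Fermat.Agent.S34.Val

set_option autoImplicit false
set_option linter.unusedSectionVars false

/-!
# S34 / Inst / JD : the `JData` of chapter SS from the two-level context `Two`

`jj : E` ("`j`"), a unit of `T.VE`, fixed by the Frobenius twist; `J = jj ∈ F`, `Jq = V_q jj`, `g = Jq / J ^ q`;
`D : F` ("`Δ(z)/Δ(qz)`") a unit of `Vi` with `w D ∈ 𝔪_i`, `D * w D = c₀`.
-/

noncomputable section

namespace Fermat.Agent.S34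

open Polynomial IntermediateField Fermat.Agent.S18 Fermat.Agent.S34.V2

variable {R K : Type} [CommRing R] [IsDomain R] [IsDiscreteValuationRing R] [Field K] [CharZero K]
  [Algebra R K] [IsFractionRing R K] {q : ℕ} [NeZero q] {E F : Type} [Field E] [Field F]
  [Algebra K E] [Algebra K F] [Algebra E F] [IsScalarTower K E F] {T : Two R K q E F}

theorem jData_of_two {ϖ : R} (hϖ : Irreducible ϖ) {s : E ≃+* E} (hs : FrobTwist T s)
    {t₁ jj : E} (hj0 : jj ≠ 0) (hj : jj ∈ T.VE) (hj' : jj⁻¹ ∈ T.VE) (hsj : s jj = jj)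
    (hrel : ∃ (B : R[X]) (r : ℕ), 1 ≤ r ∧ IsUnit (B.coeff 0) ∧ jj * t₁ ^ r = evR R K t₁ B)
    {D : F} {c₀ : R} (hc₀ : c₀ ≠ 0) (hDw : D * T.w D = rE R K F c₀) (hDi : D ∈ T.Vi)
    (hDi' : D ∉ T.Vi.nonunits) (hwD : T.w D ∈ T.Vi.nonunits)
    (hDint : IsIntegral (Algebra.adjoin K {algebraMap E F jj}) D)
    (hwDint : IsIntegral (Algebra.adjoin K {algebraMap E F jj}) (T.w D))
    (hgint : IsIntegral (Algebra.adjoin K {(algebraMap E F jj)⁻¹})
      (T.i2 jj / algebraMap E F jj ^ q)) :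
    JData (K := K) ϖ q (algebraMap E F t₁) T.Vi T.V0 (algebraMap E F jj) D (T.w D)
      (T.i2 jj / algebraMap E F jj ^ q) (T.i2 jj) c₀ := by
  set a : F := algebraMap E F jj with ha
  set b : F := T.i2 jj with hb
  have ha0 : a ≠ 0 := (_root_.map_ne_zero _).2 hj0
  have hb0 : b ≠ 0 := (_root_.map_ne_zero _).2 hj0
  have hq1 : 1 ≤ q := Nat.one_le_iff_ne_zero.2 (NeZero.ne q)
  -- memberships
  have hai : a⁻¹ ∈ T.Vi := by rw [ha, ← map_inv₀]; exact T.map_mem_Vi.2 hj'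
  have ha_0 : a ∈ T.V0 := T.map_mem_V0.2 hj
  have hai_0 : a⁻¹ ∈ T.V0 := by rw [ha, ← map_inv₀]; exact T.map_mem_V0.2 hj'
  have hb_0 : b ∈ T.V0 := T.i2_mem_V0.2 hj
  have hbi_0 : b⁻¹ ∈ T.V0 := by rw [hb, ← map_inv₀]; exact T.i2_mem_V0.2 hj'
  have hfi : b - a ^ q ∈ T.Vi.nonunits := by
    have := hs.frob_i jj hj
    rwa [hsj] at this
  have hf0 : a - b ^ q ∈ T.V0.nonunits := by
    have := hs.frob_0 jj hj
    rwa [hsj] at this
  refine
    { J_eq := ?_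
      ne := hc₀
      D_int := exists_pow_mul_mem_CInt hϖ hDint
      D'_int := exists_pow_mul_mem_CInt hϖ hwDint
      D_mem_i := hDi
      D'_mem_i := mem_of_mem_nonunits _ hwD
      D'_mem_0 := T.w_mem_V0.2 hDi
      mul := hDw
      D_0 := T.mem_V0_nonunits.2 hwD
      D_i := hDi'
      g_int := exists_pow_mul_mem_CInt hϖ hgint
      g_mem_0 := ?_
      g_mul := div_mul_cancel₀ _ (pow_ne_zero _ ha0)
      g_i := ?_
      g_0 := ?_ }
  · obtain ⟨B, r, hr, hB0, h⟩ := hrel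
    refine ⟨B, r, hr, hB0, ?_⟩
    rw [← map_evR, ← h, map_mul, map_pow]
  · rw [div_eq_mul_inv, ← inv_pow]
    exact mul_mem hb_0 (pow_mem hai_0 q)
  · have e : b / a ^ q - 1 = (b - a ^ q) * (a⁻¹) ^ q := by
      have hA : a ^ q ≠ 0 := pow_ne_zero _ ha0
      rw [inv_pow]
      field_simp
    rw [e]
    exact mul_mem_nonunits' _ hfi (pow_mem hai q)
  · refine ⟨q ^ 2 - 1, ?_, ?_⟩
    · have : 2 ≤ q := T.hq.two_le
      have h4 : 4 ≤ q ^ 2 := by nlinarith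
      omega
    · have h1 : a ^ q - (b ^ q) ^ q ∈ T.V0.nonunits :=
        ss_pow_sub_pow_mem _ ha_0 (pow_mem hb_0 q) hf0 q
      have hk : q ^ 2 = (q ^ 2 - 1) + 1 := by
        have : 1 ≤ q ^ 2 := Nat.one_le_pow _ _ hq1
        omega
      have e : b / a ^ q - b⁻¹ ^ (q ^ 2 - 1) =
          -((a ^ q - (b ^ q) ^ q) * ((a⁻¹) ^ q * (b⁻¹) ^ (q ^ 2 - 1))) := by
        have h2 : (b ^ q) ^ q = b ^ (q ^ 2 - 1) * b := by
          rw [← pow_mul, ← pow_two, ← pow_succ, ← hk]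
        have hA : a ^ q ≠ 0 := pow_ne_zero _ ha0
        have hBk : b ^ (q ^ 2 - 1) ≠ 0 := pow_ne_zero _ hb0
        rw [h2, inv_pow, inv_pow]
        generalize a ^ q = A at hA ⊢
        generalize b ^ (q ^ 2 - 1) = Bk at hBk ⊢
        field_simp
        ring
      rw [e]
      exact neg_mem_nonunits _
        (mul_mem_nonunits' _ h1 (mul_mem (pow_mem hai_0 q) (pow_mem hbi_0 _)))

end Fermat.Agent.S34
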