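import Fermat.Agent.S34.Inst.Basic
import Fermat.Agent.S34.V2.TwoCount
import Fermat.Agent.S34.V2.TwoBranches

set_option autoImplicit false
set_option linter.unusedSectionVars false

/-!
# S34 / Inst / Sides : the two `Side`s of chapter SS from the two-level context `Two` of chapter V2
-/

noncomputable section

namespace Fermat.Agent.S34

open Polynomial IntermediateField Fermat.Agent.S18 Fermat.Agent.S34.V2

variable {R K : Type} [CommRing R] [IsDomain R] [IsDiscreteValuationRing R] [Field K] [CharZero K]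
  [Algebra R K] [IsFractionRing R K] {q : ℕ} [NeZero q] {E F : Type} [Field E] [Field F]
  [Algebra K E] [Algebra K F] [Algebra E F] [IsScalarTower K E F] (T : Two R K q E F)

/-- the first degeneracy map (inclusion). -/
def instA1 (_T : Two R K q E F) : E →ₐ[K] F := IsScalarTower.toAlgHom K E F

/-- the second degeneracy map `V_q`. -/
def instA2 : E →ₐ[K] F := (T.w : F →ₐ[K] F).comp (IsScalarTower.toAlgHom K E F)

theorem instA1_apply (y : E) : instA1 T y = algebraMap E F y := rfl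

theorem instA2_apply (y : E) : instA2 T y = T.i2 y := rfl

/-- a Frobenius twist on the lower level: a ring automorphism `s` of `E` fixing `x`, preserving `R`, with
`V_q (s y) ≡ y ^ q` on the branch `∞` and `s y ≡ (V_q y) ^ q` on the branch `0`. -/
structure FrobTwist (s : E ≃+* E) : Prop where
  map_x : s T.x = T.x
  map_R : ∀ r : R, ∃ r' : R, s (rE R K E r) = rE R K E r'
  map_R_symm : ∀ r : R, ∃ r' : R, s.symm (rE R K E r) = rE R K E r'
  frob_i : ∀ y ∈ T.VE, T.i2 (s y) - algebraMap E F y ^ q ∈ T.Vi.nonunits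
  frob_0 : ∀ y ∈ T.VE, algebraMap E F (s y) - T.i2 y ^ q ∈ T.V0.nonunits

variable {T}

theorem FrobTwist.map_t {s : E ≃+* E} (hs : FrobTwist T s) {t₁ : E} (ht : t₁ = T.x ∨ t₁ = T.x⁻¹) :
    s t₁ = t₁ := by
  rcases ht with rfl | rfl
  · exact hs.map_x
  · rw [map_inv₀, hs.map_x]

theorem FrobTwist.symm_mem_CInt {s : E ≃+* E} (hs : FrobTwist T s) {t₁ : E}
    (ht : t₁ = T.x ∨ t₁ = T.x⁻¹) {y : E} (hy : y ∈ CInt R K t₁) : s.symm y ∈ CInt R K t₁ := by
  refine inst_map_CInt (s.symm : E →+* E) (fun r => ?_) ?_ hy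
  · obtain ⟨r', hr'⟩ := hs.map_R_symm r
    show s.symm (rE R K E r) ∈ _
    rw [hr']; exact rE_mem_CInt t₁ r'
  · show s.symm t₁ ∈ _
    have : s.symm t₁ = t₁ := by
      conv_lhs => rw [← hs.map_t ht]
      exact s.symm_apply_apply t₁
    rw [this]; exact self_mem_CInt t₁

/-- the side `∞`. -/
theorem side_i {ϖ : R} (hϖ : Irreducible ϖ) (hB : Branches (K := K) ϖ T.xF T.Vi T.V0) {t₁ : E}
    (ht : t₁ = T.x ∨ t₁ = T.x⁻¹) (h1 : Chart1 K ϖ t₁ T.VE) {s : E ≃+* E} (hs : FrobTwist T s)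
    (hM8 : T.i2 t₁ ∈ CInt R K (algebraMap E F t₁)) :
    Side R q t₁ T.VE (algebraMap E F t₁) T.Vi (instA1 T) (instA2 T) where
  comap y := T.map_mem_Vi
  C_le y hy := by
    have ht' : algebraMap E F t₁ = T.xF ∨ algebraMap E F t₁ = T.xF⁻¹ := by
      rcases ht with rfl | rfl
      · exact Or.inl rfl
      · exact Or.inr (map_inv₀ _ _)
    exact (hB.mem_of_mem_CInt hϖ ht' hy).1
  mapC_a y hy := inst_algHom_CInt (instA1 T) (self_mem_CInt _) hy
  mapC_b y hy := inst_algHom_CInt (instA2 T) hM8 hy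
  res z hz := T.res_deg_one hz
  frob y hy := by
    refine ⟨s.symm y, hs.symm_mem_CInt ht hy, ?_⟩
    have := hs.frob_i (s.symm y) (h1.C_le hϖ (hs.symm_mem_CInt ht hy))
    rwa [s.apply_symm_apply] at this
  tpar := ⟨t₁, self_mem_CInt t₁, by
    rw [instA1_apply, sub_self]; exact zero_mem_nonunits _⟩

/-- the side `0`. -/
theorem side_0 {ϖ : R} (hϖ : Irreducible ϖ) (hB : Branches (K := K) ϖ T.xF T.Vi T.V0) {t₁ : E}
    (ht : t₁ = T.x ∨ t₁ = T.x⁻¹) (h1 : Chart1 K ϖ t₁ T.VE) {s : E ≃+* E} (hs : FrobTwist T s)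
    (hM8 : T.i2 t₁ ∈ CInt R K (algebraMap E F t₁)) :
    Side R q t₁ T.VE (algebraMap E F t₁) T.V0 (instA2 T) (instA1 T) where
  comap y := T.i2_mem_V0
  C_le y hy := by
    have ht' : algebraMap E F t₁ = T.xF ∨ algebraMap E F t₁ = T.xF⁻¹ := by
      rcases ht with rfl | rfl
      · exact Or.inl rfl
      · exact Or.inr (map_inv₀ _ _)
    exact (hB.mem_of_mem_CInt hϖ ht' hy).2
  mapC_a y hy := inst_algHom_CInt (instA2 T) hM8 hy
  mapC_b y hy := inst_algHom_CInt (instA1 T) (self_mem_CInt _) hy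
  res z hz := T.res_deg_one_0 hz
  frob y hy := by
    refine ⟨s.symm y, hs.symm_mem_CInt ht hy, ?_⟩
    have := hs.frob_0 (s.symm y) (h1.C_le hϖ (hs.symm_mem_CInt ht hy))
    rwa [s.apply_symm_apply] at this
  tpar := ⟨t₁ ^ q, Subring.pow_mem _ (self_mem_CInt t₁) q, by
    have := hs.frob_0 t₁ (h1.C_le hϖ (self_mem_CInt t₁))
    rw [hs.map_t ht] at this
    rwa [instA2_apply, map_pow]⟩

end Fermat.Agent.S34
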